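import Fermat.Statements.S58
import Fermat.Prelude.Def_CuspForm_Newforms

/-!
# Program E (S58): the TOP-LEVEL BINDER MAP

The four block contracts `HeckeOut`, `LevelOut`, `CoeffOut`, `StabOut` (as `Prop`s, in the literal
shapes the block owners prove) and `s58_of_blocks` : the frozen statement S58 from them.
(`p`, `hp2`, `hirr`, `hp2N` of S58 are not used.)

* `HeckeOut` (block HECKE, node (1)) : a modular model of level `N ≠ 0` whose bad primes divide `N`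
  has a NEWFORM `g` of some level `M ∣ N` with `a_ℓ(g) = a_ℓ(W)` for every prime `ℓ ∤ N`.
* `LevelOut` (block PSEUDO, node PS-3) : for `W` semistable, `Δ ≠ 0`, `N` cube-free, such a newform
  has level `M ∣ rad |Δ| = W.conductorLevel`.
* `CoeffOut` (block COEFF) : then `a_ℓ(g) = a_ℓ(W)` at EVERY good prime `ℓ` (the new content is at
  the good primes `ℓ ∣ N`).
* `StabOut` (block STAB) : an eigenform of level `M` can be raised to every squarefree multiple `C`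
  of `M` keeping the coefficients at the primes `ℓ ∤ C`.
-/

set_option autoImplicit false

open CuspForm ModularFormClass

namespace Fermat.Agent.EC.Final.Contracts

/-- **(HECKE) newform descent** -/
def HeckeOut : Prop :=
  ∀ (W : WeierstrassCurve ℤ) (N : ℕ), N ≠ 0 → W.IsModularModelOfLevel N →
    (∀ ℓ : ℕ, ℓ.Prime → (ℓ : ℤ) ∣ W.Δ → ℓ ∣ N) →
    ∃ M : ℕ, M ∣ N ∧ ∃ g : CuspForm (CongruenceSubgroup.Gamma0 M) 2, g.IsNewform ∧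
      ∀ ℓ : ℕ, ℓ.Prime → ¬ ℓ ∣ N → qCoeff g ℓ = (W.apOfModel ℓ : ℂ)

/-- **(PSEUDO, PS-3) the level of the newform divides the conductor level** -/
def LevelOut : Prop :=
  ∀ (W : WeierstrassCurve ℤ), W.IsSemistableModel → W.Δ ≠ 0 →
    ∀ (N : ℕ), N ≠ 0 → (∀ ℓ : ℕ, ℓ.Prime → (ℓ : ℤ) ∣ W.Δ → ℓ ∣ N) →
    (∀ q : ℕ, q.Prime → ¬ q ^ 3 ∣ N) →
    ∀ (M : ℕ), M ∣ N → ∀ g : CuspForm (CongruenceSubgroup.Gamma0 M) 2, g.IsNewform →
      (∀ ℓ : ℕ, ℓ.Prime → ¬ ℓ ∣ N → qCoeff g ℓ = (W.apOfModel ℓ : ℂ)) →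
      M ∣ W.conductorLevel

/-- **(COEFF) the coefficients at ALL good primes** -/
def CoeffOut : Prop :=
  ∀ (W : WeierstrassCurve ℤ), W.IsSemistableModel → W.Δ ≠ 0 →
    ∀ (N : ℕ), N ≠ 0 → (∀ ℓ : ℕ, ℓ.Prime → (ℓ : ℤ) ∣ W.Δ → ℓ ∣ N) →
    ∀ (M : ℕ), M ∣ N → M ∣ W.conductorLevel →
    ∀ g : CuspForm (CongruenceSubgroup.Gamma0 M) 2, g.IsNewform →
      (∀ ℓ : ℕ, ℓ.Prime → ¬ ℓ ∣ N → qCoeff g ℓ = (W.apOfModel ℓ : ℂ)) →
      ∀ ℓ : ℕ, ℓ.Prime → W.IsGoodPrimeFor ℓ → qCoeff g ℓ = (W.apOfModel ℓ : ℂ)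

/-- **(STAB) raising the level by stabilisation** -/
def StabOut : Prop :=
  ∀ (M C : ℕ), M ∣ C → Squarefree C →
    ∀ g : CuspForm (CongruenceSubgroup.Gamma0 M) 2, g.IsNormalizedEigenform →
      ∃ f' : CuspForm (CongruenceSubgroup.Gamma0 C) 2, f'.IsNormalizedEigenform ∧
        ∀ ℓ : ℕ, ℓ.Prime → ¬ ℓ ∣ C → qCoeff f' ℓ = qCoeff g ℓ

/-- `Δ = 0` is impossible under the hypotheses of S58 -/
theorem delta_ne_zero (W : WeierstrassCurve ℤ) (N : ℕ)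
    (hbad : ∀ ℓ : ℕ, ℓ.Prime → (ℓ : ℤ) ∣ W.Δ → ℓ ∣ N)
    (hN3 : ∀ q : ℕ, q.Prime → ¬ q ^ 3 ∣ N) : W.Δ ≠ 0 ∧ N ≠ 0 := by
  have hN0 : N ≠ 0 := by
    rintro rfl
    exact hN3 2 Nat.prime_two (dvd_zero _)
  refine ⟨?_, hN0⟩
  intro hΔ
  -- every prime divides `N`
  have hall : ∀ ℓ : ℕ, ℓ.Prime → ℓ ∣ N := fun ℓ hℓ => hbad ℓ hℓ (by rw [hΔ]; exact dvd_zero _)
  obtain ⟨ℓ, hℓN, hℓ⟩ := Nat.exists_infinite_primes (N + 1)
  have := Nat.le_of_dvd (Nat.pos_of_ne_zero hN0) (hall ℓ hℓ)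
  omega

/-- **S58 from the four block contracts.** -/
theorem s58_of_blocks (hH : HeckeOut) (hL : LevelOut) (hC : CoeffOut) (hS : StabOut)
    (W : WeierstrassCurve ℤ) (hss : W.IsSemistableModel) (N : ℕ)
    (hN : W.IsModularModelOfLevel N) (hbad : ∀ ℓ : ℕ, ℓ.Prime → (ℓ : ℤ) ∣ W.Δ → ℓ ∣ N)
    (hN3 : ∀ q : ℕ, q.Prime → ¬ q ^ 3 ∣ N) :
    W.IsModularModelOfLevel W.conductorLevel := by
  obtain ⟨hΔ, hN0⟩ := delta_ne_zero W N hbad hN3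
  obtain ⟨M, hMN, g, hg, hcoef⟩ := hH W N hN0 hN hbad
  have hMC : M ∣ W.conductorLevel := hL W hss hΔ N hN0 hbad hN3 M hMN g hg hcoef
  have hall := hC W hss hΔ N hN0 hbad M hMN hMC g hg hcoef
  obtain ⟨f', hf', hf'c⟩ := hS M W.conductorLevel hMC W.squarefree_conductorLevel g hg.1
  refine ⟨f', hf', fun ℓ hℓ hgood hℓC => ?_⟩
  rw [hf'c ℓ hℓ hℓC]
  exact hall ℓ hℓ hgood

end Fermat.Agent.EC.Final.Contracts
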