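import Fermat.Agent.EC.Final.Contracts
import Fermat.Agent.EC.Coeff.Main
import Fermat.Agent.EC.Hecke.Out
import Fermat.Agent.EC.Stab.Main

/-!
# Program E (S58), node FINAL: the block contract `CoeffOut` from the Frobenius eigenvalue criterion

`coeffOut_of_frobEigen` : `Final.Contracts.CoeffOut` from `Coeff.Main.FrobEigen W` for every
integral Weierstrass model `W` with `Δ ≠ 0` (the composite of the exports of the blocks GOOD and
HW8), by `Coeff.Main.qCoeff_eq_apOfModel` with `T := N.primeFactors`: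
a prime `r ∤ N` is good (`hbad`), prime to `M ∣ N`, and `a_r(g) = a_r(W)` there; a good prime `ℓ`
does not divide `M ∣ rad Δ`.

`s58_of_frobEigen_level` : the frozen statement of S58 from `FrobEigen` and `LevelOut` alone
(`HeckeOut` and `StabOut` are on main).
-/

set_option autoImplicit false

open CuspForm ModularFormClass

namespace Fermat.Agent.EC.Final.CoeffOutOfFrobEigen

open Fermat.Agent.EC.Final.Contracts Fermat.Agent.EC.Coeff.Main

local notation "Qb" => AlgebraicClosure ℚ

/-- **The block contract `CoeffOut` from the Frobenius eigenvalue criterion.** -/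
theorem coeffOut_of_frobEigen [DecidableEq Qb]
    (hFE : ∀ W : WeierstrassCurve ℤ, W.Δ ≠ 0 → FrobEigen W) : CoeffOut := by
  intro W _ hΔ N hN0 hbad M hMN hMC g hg hcoef ℓ hℓ hgood
  refine qCoeff_eq_apOfModel W (hFE W hΔ) hg.1 N.primeFactors ?_ hℓ hgood ?_
  · intro r hr hrT
    have hrN : ¬ r ∣ N := fun h => hrT (Nat.mem_primeFactors.mpr ⟨hr, h, hN0⟩)
    exact ⟨fun h => hrN (hbad r hr h), fun h => hrN (h.trans hMN), hcoef r hr hrN⟩
  · intro hℓM
    exact hgood ((W.prime_dvd_conductorLevel_iff hΔ hℓ).mp (hℓM.trans hMC))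

/-- **S58 from the Frobenius eigenvalue criterion and the block contract `LevelOut`**
(`HeckeOut` = `Hecke.Out.heckeOut`, `StabOut` = `Stab.Main.stabOut`). -/
theorem s58_of_frobEigen_level [DecidableEq Qb]
    (hFE : ∀ W : WeierstrassCurve ℤ, W.Δ ≠ 0 → FrobEigen W) (hL : LevelOut)
    (W : WeierstrassCurve ℤ) (hss : W.IsSemistableModel) (N : ℕ)
    (hN : W.IsModularModelOfLevel N) (hbad : ∀ ℓ : ℕ, ℓ.Prime → (ℓ : ℤ) ∣ W.Δ → ℓ ∣ N)
    (hN3 : ∀ q : ℕ, q.Prime → ¬ q ^ 3 ∣ N) :
    W.IsModularModelOfLevel W.conductorLevel :=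
  s58_of_blocks Fermat.Agent.EC.Hecke.Out.heckeOut hL (coeffOut_of_frobEigen hFE)
    Fermat.Agent.EC.Stab.Main.stabOut W hss N hN hbad hN3

end Fermat.Agent.EC.Final.CoeffOutOfFrobEigen
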