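import Fermat.Agent.EC.Final.Contracts
import Fermat.Agent.EC.Hecke.MinLevel

/-!
# Program E (S58), node FINAL: the contract `HeckeOut` of the top-level binder map is discharged

`heckeOut : Contracts.HeckeOut` from `Hecke.MinLevel.exists_newform_of_isModularModelOfLevel`
(HECKE-1): the hypothesis `IsGoodPrimeFor` is dropped with `hbad` (a prime `ℓ ∤ N` is good).

`s58_of_three` : the frozen statement S58 from the three remaining block contracts
`LevelOut`, `CoeffOut`, `StabOut`.
-/

set_option autoImplicit false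

open CuspForm ModularFormClass

namespace Fermat.Agent.EC.Final.HeckeOutDone

open Fermat.Agent.EC.Final.Contracts

/-- **The contract `HeckeOut`.** -/
theorem heckeOut : HeckeOut := by
  intro W N hN0 hN hbad
  obtain ⟨M, hMN, g, hg, hgW⟩ :=
    Fermat.Agent.EC.Hecke.MinLevel.exists_newform_of_isModularModelOfLevel hN0 hN
  exact ⟨M, hMN, g, hg, fun ℓ hℓ hℓN => hgW ℓ hℓ (fun h => hℓN (hbad ℓ hℓ h)) hℓN⟩

/-- **S58 from the three remaining block contracts.** -/
theorem s58_of_three (hL : LevelOut) (hC : CoeffOut) (hS : StabOut)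
    (W : WeierstrassCurve ℤ) (hss : W.IsSemistableModel) (N : ℕ)
    (hN : W.IsModularModelOfLevel N) (hbad : ∀ ℓ : ℕ, ℓ.Prime → (ℓ : ℤ) ∣ W.Δ → ℓ ∣ N)
    (hN3 : ∀ q : ℕ, q.Prime → ¬ q ^ 3 ∣ N) :
    W.IsModularModelOfLevel W.conductorLevel :=
  s58_of_blocks heckeOut hL hC hS W hss N hN hbad hN3

end Fermat.Agent.EC.Final.HeckeOutDone
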